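import Fermat.Agent.S14.Defs

/-!
# S14 T02b: Hilbert 90 in a cyclic extension of number fields, integral form, and the norm of `β`
-/

set_option autoImplicit false

namespace Fermat.Agent.S14.Kappa

open NumberField

section H90

variable {K L : Type*} [Field K] [Field L] [Algebra K L] [FiniteDimensional K L]

/-- the partial norms `x · τx ⋯ τ^{k-1}x`. -/
noncomputable def pnorm (τ : L ≃ₐ[K] L) (x : L) (k : ℕ) : L := ∏ i ∈ Finset.range k, (τ ^ i) x

omit [FiniteDimensional K L] in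
theorem pnorm_add (τ : L ≃ₐ[K] L) (x : L) (a b : ℕ) :
    pnorm τ x (a + b) = pnorm τ x a * (τ ^ a) (pnorm τ x b) := by
  unfold pnorm
  rw [Finset.prod_range_add, map_prod]
  congr 1
  refine Finset.prod_congr rfl fun i _ => ?_
  rw [pow_add, AlgEquiv.mul_apply]

omit [FiniteDimensional K L] in
theorem pnorm_ne_zero (τ : L ≃ₐ[K] L) {x : L} (hx : x ≠ 0) (k : ℕ) : pnorm τ x k ≠ 0 := by
  unfold pnorm
  rw [Finset.prod_ne_zero_iff]
  intro i _
  exact (map_ne_zero_iff _ (τ ^ i).injective).mpr hx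

theorem pnorm_orderOf [IsGalois K L] (τ : L ≃ₐ[K] L) (hτ : ∀ σ : L ≃ₐ[K] L, σ ∈ Subgroup.zpowers τ)
    (x : L) (hx : Algebra.norm K x = 1) : pnorm τ x (orderOf τ) = 1 := by
  classical
  have h1 := Algebra.norm_eq_prod_automorphisms K x
  rw [hx, map_one] at h1
  have huniv : (Finset.univ : Finset (L ≃ₐ[K] L)) = (Finset.range (orderOf τ)).image (τ ^ ·) := by
    ext σ
    simp only [Finset.mem_univ, true_iff]
    exact (mem_zpowers_iff_mem_range_orderOf).mp (hτ σ)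
  rw [h1, huniv, Finset.prod_image]
  · rfl
  · intro a ha b hb hab
    exact pow_injOn_Iio_orderOf (by simpa using ha) (by simpa using hb) hab

theorem pnorm_mod [IsGalois K L] (τ : L ≃ₐ[K] L) (hτ : ∀ σ : L ≃ₐ[K] L, σ ∈ Subgroup.zpowers τ)
    (x : L) (hx : Algebra.norm K x = 1) (k : ℕ) :
    pnorm τ x (k % orderOf τ) = pnorm τ x k := by
  have hmul : ∀ m : ℕ, pnorm τ x (orderOf τ * m) = 1 := by
    intro m
    induction m with
    | zero => simp [pnorm]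
    | succ m ih =>
      rw [Nat.mul_succ, pnorm_add, ih, pnorm_orderOf τ hτ x hx, map_one, one_mul]
  conv_rhs => rw [← Nat.mod_add_div k (orderOf τ), pnorm_add, hmul, map_one, mul_one]

theorem pnorm_congr [IsGalois K L] (τ : L ≃ₐ[K] L) (hτ : ∀ σ : L ≃ₐ[K] L, σ ∈ Subgroup.zpowers τ)
    (x : L) (hx : Algebra.norm K x = 1) {a b : ℕ} (hab : τ ^ a = τ ^ b) :
    pnorm τ x a = pnorm τ x b := by
  rw [pow_eq_pow_iff_modEq] at hab
  rw [← pnorm_mod τ hτ x hx a, ← pnorm_mod τ hτ x hx b, hab]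

/-- Hilbert 90 for cyclic extensions, in any universe. -/
theorem hilbert90_cyclic [IsGalois K L] (τ : L ≃ₐ[K] L)
    (hτ : ∀ σ : L ≃ₐ[K] L, σ ∈ Subgroup.zpowers τ) (x : L) (hx : Algebra.norm K x = 1) :
    ∃ y : L, y ≠ 0 ∧ τ y = x * y := by
  classical
  have hx0 : x ≠ 0 := by
    rintro rfl
    rw [Algebra.norm_zero] at hx
    exact zero_ne_one hx
  have hex : ∀ σ : L ≃ₐ[K] L, ∃ k : ℕ, τ ^ k = σ := by
    intro σ
    have := (mem_zpowers_iff_mem_range_orderOf).mp (hτ σ)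
    rw [Finset.mem_image] at this
    obtain ⟨k, -, hk⟩ := this
    exact ⟨k, hk⟩
  choose k hk using hex
  let f : (L ≃ₐ[K] L) → Lˣ := fun σ => Units.mk0 (pnorm τ x (k σ)) (pnorm_ne_zero τ hx0 _)
  have hf : groupCohomology.IsMulCocycle₁ f := by
    intro g h
    apply Units.ext
    simp only [f, Units.val_mul, Units.val_mk0, AlgEquiv.smul_units_def, Units.coe_map,
      MonoidHom.coe_coe]
    have h1 : τ ^ k (g * h) = τ ^ (k g + k h) := by rw [hk, pow_add, hk, hk]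
    rw [pnorm_congr τ hτ x hx h1, pnorm_add, hk, mul_comm]
  obtain ⟨β, hβ⟩ := groupCohomology.isMulCoboundary₁_of_isMulCocycle₁_of_aut_to_units f hf
  refine ⟨β, β.ne_zero, ?_⟩
  have h2 := congrArg Units.val (hβ τ)
  have h3 : pnorm τ x (k τ) = x := by
    have : τ ^ k τ = τ ^ 1 := by rw [hk, pow_one]
    rw [pnorm_congr τ hτ x hx this]
    simp [pnorm]
  simp only [f, Units.val_div_eq_div_val, Units.val_mk0, AlgEquiv.smul_units_def, Units.coe_map,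
    MonoidHom.coe_coe, h3] at h2
  rw [div_eq_iff β.ne_zero] at h2
  exact h2

end H90

variable {K : Type*} [Field K] [NumberField K] {L : Type*} [Field L] [NumberField L] [Algebra K L]

/-- the restriction of `τ` to the ring of integers. -/
noncomputable abbrev resO (τ : L ≃ₐ[K] L) : 𝓞 L ≃ₐ[𝓞 K] 𝓞 L := galRestrict (𝓞 K) K L (𝓞 L) τ

theorem coe_resO (τ : L ≃ₐ[K] L) (x : 𝓞 L) : ((resO τ x : 𝓞 L) : L) = τ (x : L) :=
  algebraMap_galRestrict_apply (𝓞 K) τ x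

theorem resO_mul_apply (σ σ' : L ≃ₐ[K] L) (x : 𝓞 L) : resO (σ * σ') x = resO σ (resO σ' x) := by
  apply RingOfIntegers.ext
  rw [coe_resO, coe_resO, coe_resO]
  rfl

theorem resO_one_apply (x : 𝓞 L) : resO (1 : L ≃ₐ[K] L) x = x := by
  apply RingOfIntegers.ext
  rw [coe_resO]
  rfl

/-- the automorphisms multiplying `β` by a unit. -/
def unitStab (β : 𝓞 L) : Subgroup (L ≃ₐ[K] L) where
  carrier := {σ | ∃ u : (𝓞 L)ˣ, resO σ β = u * β}
  one_mem' := ⟨1, by rw [resO_one_apply]; simp⟩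
  mul_mem' := by
    rintro σ σ' ⟨u, hu⟩ ⟨u', hu'⟩
    refine ⟨Units.map (resO σ : 𝓞 L →* 𝓞 L) u' * u, ?_⟩
    rw [resO_mul_apply, hu', map_mul, hu]
    simp [mul_assoc]
  inv_mem' := by
    rintro σ ⟨u, hu⟩
    refine ⟨(Units.map (resO σ⁻¹ : 𝓞 L →* 𝓞 L) u)⁻¹, ?_⟩
    have h1 : resO σ⁻¹ (resO σ β) = β := by
      rw [← resO_mul_apply, inv_mul_cancel, resO_one_apply]
    rw [hu, map_mul] at h1
    rw [Units.eq_inv_mul_iff_mul_eq]
    exact h1

/-- `ξ` of norm one in a cyclic extension with generator `τ`: there is `β ≠ 0` integral with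
`τ β = τ ξ * β`, and `N β = unit * β ^ [L : K]`. -/
theorem exists_beta [IsGalois K L] (τ : L ≃ₐ[K] L) (hτ : ∀ σ : L ≃ₐ[K] L, σ ∈ Subgroup.zpowers τ)
    (ξ : 𝓞 L) (hξ : Algebra.norm K (ξ : L) = 1) :
    ∃ (β : 𝓞 L) (κ : 𝓞 K) (u : (𝓞 L)ˣ), β ≠ 0 ∧ resO τ β = resO τ ξ * β ∧
      algebraMap (𝓞 K) (𝓞 L) κ = u * β ^ Module.finrank K L := by
  classical
  have hnorm : Algebra.norm K (τ (ξ : L)) = 1 := by
    rw [Algebra.norm_eq_of_algEquiv τ, hξ]
  obtain ⟨y, hy0, hy⟩ := hilbert90_cyclic τ hτ (τ (ξ : L)) hnorm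
  have halg : IsAlgebraic ℤ y :=
    (IsFractionRing.isAlgebraic_iff ℤ ℚ L).mpr (Algebra.IsAlgebraic.isAlgebraic y)
  obtain ⟨m, hm0, hm⟩ := halg.exists_integral_multiple
  obtain ⟨β, hβdef⟩ : ∃ β : 𝓞 L, (β : L) = m • y := ⟨⟨m • y, hm⟩, rfl⟩
  have hβ0 : β ≠ 0 := by
    rintro rfl
    have : m • y = 0 := hβdef.symm
    rw [smul_eq_zero] at this
    exact this.elim hm0 hy0
  have hβτ : resO τ β = resO τ ξ * β := by
    apply RingOfIntegers.ext
    have h1 : ((resO τ ξ * β : 𝓞 L) : L) = ((resO τ ξ : 𝓞 L) : L) * (β : L) :=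
      map_mul (algebraMap (𝓞 L) L) _ _
    rw [h1, coe_resO, coe_resO, hβdef, map_zsmul, hy, mul_smul_comm]
  -- `ξ` is a unit
  have hprodξ : ∏ σ : L ≃ₐ[K] L, resO σ ξ = 1 := by
    apply RingOfIntegers.ext
    have h1 := Algebra.norm_eq_prod_automorphisms K (ξ : L)
    rw [hξ, map_one] at h1
    have h2 : ((∏ σ : L ≃ₐ[K] L, resO σ ξ : 𝓞 L) : L) = ∏ σ : L ≃ₐ[K] L, ((resO σ ξ : 𝓞 L) : L) :=
      map_prod (algebraMap (𝓞 L) L) _ _
    rw [h2]
    simp only [coe_resO]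
    rw [← h1]
    rfl
  have hξu : IsUnit ξ := by
    apply isUnit_of_dvd_one
    rw [← hprodξ]
    have := Finset.dvd_prod_of_mem (fun σ : L ≃ₐ[K] L => resO σ ξ) (Finset.mem_univ 1)
    rwa [resO_one_apply] at this
  have hmemτ : τ ∈ unitStab (K := K) β :=
    ⟨(hξu.map (resO τ)).unit, by rw [hβτ]; rfl⟩
  have hall : ∀ σ : L ≃ₐ[K] L, ∃ u : (𝓞 L)ˣ, resO σ β = u * β := by
    intro σ
    exact (Subgroup.zpowers_le.mpr hmemτ) (hτ σ)
  choose u hu using hall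
  refine ⟨β, _, ∏ σ, u σ, hβ0, hβτ, (prod_galRestrict_eq_norm (𝓞 K) K L (𝓞 L) β).symm.trans ?_⟩
  have h3 : ∀ σ : L ≃ₐ[K] L, galRestrict (𝓞 K) K L (𝓞 L) σ β = u σ * β := hu
  simp only [h3]
  rw [Finset.prod_mul_distrib, Finset.prod_const, Finset.card_univ, ← Nat.card_eq_fintype_card,
    IsGalois.card_aut_eq_finrank, Units.coe_prod]

end Fermat.Agent.S14.Kappa
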