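import Fermat.Agent.S14.Kappa.Cyclo
import Fermat.Agent.S14.Kappa.Hilbert

/-!
# S14 T02e: `Gal(K(ζ_q)/K)` acts trivially on `𝓞 L` modulo `1 - ζ_q`
-/

set_option autoImplicit false

namespace Fermat.Agent.S14.Kappa

open NumberField

variable {K : Type*} [Field K] [NumberField K] {L : Type*} [Field L] [NumberField L] [Algebra K L]

/-- `Gal(L/K)` acts trivially modulo `1 - ζ_q`. -/
theorem resO_sub_mem {p q : ℕ} (hp : p.Prime) (hq : q.Prime) (hpq : p ≠ q)
    [IsCyclotomicExtension {p} ℚ K] [IsCyclotomicExtension {q} K L]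
    (zq : 𝓞 L) (hzq : IsPrimitiveRoot zq q) (τ : L ≃ₐ[K] L) (y : 𝓞 L) :
    resO τ y - y ∈ Ideal.span {1 - zq} := by
  have : NeZero p := ⟨hp.ne_zero⟩
  have : NeZero q := ⟨hq.ne_zero⟩
  have : NeZero (p * q) := ⟨mul_ne_zero hp.ne_zero hq.ne_zero⟩
  have hcyc : IsCyclotomicExtension {p * q} ℚ L := isCyclotomicExtension_mul (K := K) L hp hq hpq
  have hz : IsPrimitiveRoot (IsCyclotomicExtension.zeta p ℚ K) p :=
    IsCyclotomicExtension.zeta_spec p ℚ K
  obtain ⟨z, hzdef⟩ : ∃ z : 𝓞 K, z = hz.toInteger := ⟨_, rfl⟩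
  have hzp : IsPrimitiveRoot z p := hzdef ▸ hz.toInteger_isPrimitiveRoot
  have hzL : IsPrimitiveRoot (algebraMap (𝓞 K) (𝓞 L) z) p :=
    hzp.map_of_injective (FaithfulSMul.algebraMap_injective (𝓞 K) (𝓞 L))
  have hprod : IsPrimitiveRoot (algebraMap (𝓞 K) (𝓞 L) z * zq) (p * q) := by
    rw [IsPrimitiveRoot.iff_orderOf,
      (Commute.all _ _).orderOf_mul_eq_mul_orderOf_of_coprime
        (by rw [← hzL.eq_orderOf, ← hzq.eq_orderOf]; exact (Nat.coprime_primes hp hq).mpr hpq),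
      ← hzL.eq_orderOf, ← hzq.eq_orderOf]
  have hprodL : IsPrimitiveRoot ((algebraMap (𝓞 K) (𝓞 L) z * zq : 𝓞 L) : L) (p * q) :=
    hprod.map_of_injective RingOfIntegers.coe_injective
  have htop := IsCyclotomicExtension.Rat.adjoin_singleton_eq_top hprodL
  have hgen : hprodL.toInteger = algebraMap (𝓞 K) (𝓞 L) z * zq := RingOfIntegers.ext rfl
  rw [hgen] at htop
  have hy : y ∈ Algebra.adjoin ℤ {algebraMap (𝓞 K) (𝓞 L) z * zq} := htop ▸ Algebra.mem_top
  have hone : ∀ k : ℕ, zq ^ k - 1 ∈ Ideal.span {1 - zq} := by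
    intro k
    rw [Ideal.mem_span_singleton, ← neg_dvd, neg_sub]
    simpa using sub_dvd_pow_sub_pow zq 1 k
  induction hy using Algebra.adjoin_induction with
  | mem x hx =>
    rw [Set.mem_singleton_iff] at hx
    subst hx
    have hpow : (resO τ zq) ^ q = 1 := by rw [← map_pow, hzq.pow_eq_one, map_one]
    obtain ⟨k, -, hk⟩ := hzq.eq_pow_of_pow_eq_one hpow
    rw [map_mul, AlgEquiv.commutes, ← hk, ← mul_sub]
    refine Ideal.mul_mem_left _ _ ?_
    have h1 := Ideal.sub_mem _ (hone k) (hone 1)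
    simpa using h1
  | algebraMap n =>
    simp
  | add a b _ _ ha hb =>
    rw [map_add]
    have := Ideal.add_mem _ ha hb
    convert this using 1
    ring
  | mul a b _ _ ha hb =>
    rw [map_mul]
    have := Ideal.add_mem _ (Ideal.mul_mem_left _ (resO τ a) hb) (Ideal.mul_mem_right b _ ha)
    convert this using 1
    ring

end Fermat.Agent.S14.Kappa
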