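import Fermat.Agent.S14.Defs

/-!
# S14 T02a: the field `L = K(ζ_q)`, `K = ℚ(ζ_p)`: it is `ℚ(ζ_pq)`, degree, Galois group, norm of `ξ`
-/

set_option autoImplicit false

namespace Fermat.Agent.S14.Kappa

open NumberField

variable {K : Type*} [Field K] [NumberField K] (L : Type*) [Field L] [NumberField L] [Algebra K L]

theorem isCyclotomicExtension_mul {p q : ℕ} (hp : p.Prime) (hq : q.Prime) (hpq : p ≠ q)
    [IsCyclotomicExtension {p} ℚ K] [IsCyclotomicExtension {q} K L] :
    IsCyclotomicExtension {p * q} ℚ L := by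
  have : NeZero p := ⟨hp.ne_zero⟩
  have : NeZero q := ⟨hq.ne_zero⟩
  have hne : p * q ≠ 0 := Nat.mul_ne_zero hp.ne_zero hq.ne_zero
  have : NeZero (p * q) := ⟨hne⟩
  have h1 : IsCyclotomicExtension ({p} ∪ {q}) ℚ L :=
    IsCyclotomicExtension.trans {p} {q} ℚ K L (algebraMap K L).injective
  obtain ⟨a, ha⟩ := IsCyclotomicExtension.exists_isPrimitiveRoot ℚ L
    (show p ∈ ({p} ∪ {q} : Set ℕ) by simp) hp.ne_zero
  obtain ⟨b, hb⟩ := IsCyclotomicExtension.exists_isPrimitiveRoot ℚ L
    (show q ∈ ({p} ∪ {q} : Set ℕ) by simp) hq.ne_zero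
  have hcop : Nat.Coprime p q := (Nat.coprime_primes hp hq).2 hpq
  have hab := ha.pow_mul_pow_lcm hb hp.ne_zero hq.ne_zero
  rw [hcop.lcm_eq_mul] at hab
  have h2 : IsCyclotomicExtension ({p} ∪ {q} ∪ {p * q}) ℚ L :=
    IsCyclotomicExtension.union_of_isPrimitiveRoot _ ℚ L hab
  have h3 : IsCyclotomicExtension ({p * q} ∪ {p} ∪ {q}) ℚ L := by
    convert h2 using 1
    ext x
    simp only [Set.mem_union, Set.mem_singleton_iff]
    tauto
  have h4 : IsCyclotomicExtension ({p * q} ∪ {p}) ℚ L :=
    (IsCyclotomicExtension.iff_union_of_dvd ℚ L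
      ⟨p * q, by simp, hne, Dvd.intro_left p rfl⟩).2 h3
  exact (IsCyclotomicExtension.iff_union_of_dvd ℚ L
      ⟨p * q, by simp, hne, Dvd.intro q rfl⟩).2 h4

theorem finrank_eq {p q : ℕ} (hp : p.Prime) (hq : q.Prime) (hpq : p ≠ q)
    [IsCyclotomicExtension {p} ℚ K] [IsCyclotomicExtension {q} K L] :
    Module.finrank K L = q - 1 := by
  have := isCyclotomicExtension_mul (K := K) L hp hq hpq
  have : NeZero (p * q) := ⟨Nat.mul_ne_zero hp.ne_zero hq.ne_zero⟩
  have : NeZero p := ⟨hp.ne_zero⟩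
  have hcop : Nat.Coprime p q := (Nat.coprime_primes hp hq).2 hpq
  have h1 : Module.finrank ℚ L = (p * q).totient :=
    IsCyclotomicExtension.finrank L (Polynomial.cyclotomic.irreducible_rat (NeZero.pos _))
  have h2 : Module.finrank ℚ K = p.totient :=
    IsCyclotomicExtension.finrank K (Polynomial.cyclotomic.irreducible_rat (NeZero.pos _))
  have h3 := Module.finrank_mul_finrank ℚ K L
  rw [h1, h2, Nat.totient_mul hcop, Nat.totient_prime hp, Nat.totient_prime hq] at h3
  have hp1 : 0 < p - 1 := by have := hp.two_le; omega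
  exact Nat.eq_of_mul_eq_mul_left hp1 h3

theorem irreducible_cyclotomic {p q : ℕ} (hp : p.Prime) (hq : q.Prime) (hpq : p ≠ q)
    [IsCyclotomicExtension {p} ℚ K] :
    Irreducible (Polynomial.cyclotomic q K) := by
  have : NeZero q := ⟨hq.ne_zero⟩
  let L := CyclotomicField q K
  have hfr : Module.finrank K L = q - 1 := finrank_eq L hp hq hpq
  have hζ : IsPrimitiveRoot (IsCyclotomicExtension.zeta q K L) q :=
    IsCyclotomicExtension.zeta_spec q K L
  set ζ := IsCyclotomicExtension.zeta q K L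
  have hint : IsIntegral K ζ := IsIntegral.of_finite K ζ
  have hdvd : minpoly K ζ ∣ Polynomial.cyclotomic q K := by
    apply minpoly.dvd
    rw [Polynomial.aeval_def, Polynomial.eval₂_eq_eval_map, Polynomial.map_cyclotomic]
    exact hζ.isRoot_cyclotomic (NeZero.pos q)
  have hdeg : (minpoly K ζ).natDegree = q - 1 := by
    have htop : Algebra.adjoin K {ζ} = ⊤ :=
      IsCyclotomicExtension.adjoin_primitive_root_eq_top hζ
    have htop' : IntermediateField.adjoin K {ζ} = ⊤ := by
      rw [← IntermediateField.toSubalgebra_inj,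
        IntermediateField.adjoin_simple_toSubalgebra_of_isAlgebraic hint.isAlgebraic, htop]
      rfl
    rw [← IntermediateField.adjoin.finrank hint, htop', IntermediateField.finrank_top', hfr]
  have heq : Polynomial.cyclotomic q K = minpoly K ζ := by
    apply Polynomial.eq_of_monic_of_dvd_of_natDegree_le (minpoly.monic hint)
      (Polynomial.cyclotomic.monic q K) hdvd
    rw [hdeg, Polynomial.natDegree_cyclotomic, Nat.totient_prime hq]
  rw [heq]
  exact minpoly.irreducible hint

end Fermat.Agent.S14.Kappa
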