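import Mathlib

/-!
# S14 T02c2: factorisation of an ideal whose multiplicities outside `S` are divisible by `p`
-/

set_option autoImplicit false

namespace Fermat.Agent.S14.Kappa

open UniqueFactorizationMonoid in
/-- an ideal all of whose multiplicities outside `S` are divisible by `p`. -/
theorem exists_factorization {A : Type*} [CommRing A] [IsDedekindDomain A] (κ : A) (hκ : κ ≠ 0)
    (p : ℕ) (hp : p ≠ 0) (S : Finset (Ideal A)) (hS : ∀ 𝔮 ∈ S, 𝔮.IsPrime ∧ 𝔮 ≠ ⊥)
    (r : Ideal A → ℕ) (hr : ∀ 𝔮 ∈ S, emultiplicity 𝔮 (Ideal.span {κ}) = r 𝔮)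
    (hdiv : ∀ P : Ideal A, P.IsPrime → P ≠ ⊥ → P ∉ S →
      ∃ n : ℕ, emultiplicity P (Ideal.span {κ}) = (p * n : ℕ)) :
    ∃ B₁ : Ideal A, B₁ ≠ ⊥ ∧ Ideal.span {κ} = B₁ ^ p * ∏ 𝔮 ∈ S, 𝔮 ^ r 𝔮 := by
  classical
  set I : Ideal A := Ideal.span {κ} with hI
  have hI0 : I ≠ 0 := by
    rw [hI, Ne, Ideal.zero_eq_bot, Ideal.span_singleton_eq_bot]; exact hκ
  set m := normalizedFactors I with hm
  have hprod : m.prod = I := Ideal.prod_normalizedFactors_eq_self hI0
  -- count = emultiplicity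
  have hcount : ∀ P : Ideal A, P.IsPrime → P ≠ ⊥ → emultiplicity P I = m.count P := by
    intro P hP hP0
    have hirr : Irreducible P := (Ideal.prime_of_isPrime hP0 hP).irreducible
    rw [emultiplicity_eq_count_normalizedFactors hirr hI0, normalize_eq]
  have hprime_of_mem : ∀ P ∈ m, P.IsPrime ∧ P ≠ ⊥ := by
    intro P hP
    have h1 : Prime P := prime_of_normalized_factor P hP
    exact ⟨Ideal.isPrime_of_prime h1, h1.ne_zero⟩
  set m1 := m.filter (· ∈ S) with hm1
  set m2 := m.filter (fun P => ¬ P ∈ S) with hm2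
  have hsplit : m1 + m2 = m := Multiset.filter_add_not _ _
  -- second part
  have hm2div : ∀ P, p ∣ m2.count P := by
    intro P
    by_cases hPm : P ∈ m2
    · obtain ⟨hPm', hPS⟩ := Multiset.mem_filter.mp hPm
      obtain ⟨hP, hP0⟩ := hprime_of_mem P hPm'
      obtain ⟨n, hn⟩ := hdiv P hP hP0 hPS
      rw [hcount P hP hP0] at hn
      have hn' : m.count P = p * n := by exact_mod_cast hn
      rw [hm2, Multiset.count_filter_of_pos (p := fun P => ¬ P ∈ S) hPS, hn']
      exact dvd_mul_right _ _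
    · rw [Multiset.count_eq_zero_of_notMem hPm]
      exact dvd_zero _
  obtain ⟨m', hm'⟩ := Multiset.exists_smul_of_dvd_count m2 (fun P _ => hm2div P)
  -- first part
  have hm1prod : m1.prod = ∏ 𝔮 ∈ S, 𝔮 ^ r 𝔮 := by
    rw [Finset.prod_multiset_count_of_subset m1 S]
    · refine Finset.prod_congr rfl (fun 𝔮 h𝔮 => ?_)
      obtain ⟨h1, h2⟩ := hS 𝔮 h𝔮
      have h3 := hr 𝔮 h𝔮
      rw [hcount 𝔮 h1 h2] at h3
      have h4 : m.count 𝔮 = r 𝔮 := by exact_mod_cast h3
      rw [hm1, Multiset.count_filter_of_pos (p := fun P => P ∈ S) h𝔮, h4]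
    · intro P hP
      rw [Multiset.mem_toFinset] at hP
      exact (Multiset.mem_filter.mp hP).2
  refine ⟨m'.prod, ?_, ?_⟩
  · intro h0
    have h1 : (0 : Ideal A) ∈ m' := by
      rw [← Multiset.prod_eq_zero_iff]; exact h0
    have h2 : (0 : Ideal A) ∈ m2 := by
      rw [hm']
      exact (Multiset.mem_nsmul (n := p) ).mpr ⟨hp, h1⟩
    exact (hprime_of_mem 0 (Multiset.mem_filter.mp h2).1).2 rfl
  · rw [← hprod, ← hsplit, Multiset.prod_add, hm1prod, hm', Multiset.prod_nsmul, mul_comm]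

end Fermat.Agent.S14.Kappa
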