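import Fermat.Agent.S14.Defs

/-!
# S14 T02a2: generator of `Gal(K(ζ_q)/K)` and the norm of `ξ = 1 - ζ ζ_q`
-/

set_option autoImplicit false

namespace Fermat.Agent.S14.Kappa

open NumberField

variable {K : Type*} [Field K] [NumberField K] {L : Type*} [Field L] [NumberField L] [Algebra K L]

theorem exists_tau {q : ℕ} (hq : q.Prime) [IsCyclotomicExtension {q} K L]
    (hirr : Irreducible (Polynomial.cyclotomic q K)) {ζq : L} (hζq : IsPrimitiveRoot ζq q)
    (g : ℕ) (hg : orderOf (g : ZMod q) = q - 1) :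
    ∃ τ : L ≃ₐ[K] L, τ ζq = ζq ^ g ∧ ∀ σ : L ≃ₐ[K] L, σ ∈ Subgroup.zpowers τ := by
  have : Fact q.Prime := ⟨hq⟩
  have : NeZero q := ⟨hq.ne_zero⟩
  have hg0 : (g : ZMod q) ≠ 0 := by
    intro h0
    rw [h0, orderOf_zero] at hg
    have := hq.two_le
    omega
  set u : (ZMod q)ˣ := Units.mk0 (g : ZMod q) hg0 with hu
  have hou : orderOf u = Nat.card (ZMod q)ˣ := by
    rw [Nat.card_eq_fintype_card, ZMod.card_units, ← hg, ← orderOf_units, hu, Units.val_mk0]
  have hgen : ∀ v : (ZMod q)ˣ, v ∈ Subgroup.zpowers u := by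
    intro v
    have : Subgroup.zpowers u = ⊤ := by
      rw [← Subgroup.card_eq_iff_eq_top, Nat.card_zpowers, hou]
    rw [this]
    exact Subgroup.mem_top v
  set e := IsCyclotomicExtension.autEquivPow L hirr with he
  refine ⟨e.symm u, ?_, ?_⟩
  · have hz := IsCyclotomicExtension.zeta_spec q K L
    obtain ⟨k, -, hk⟩ := hz.eq_pow_of_pow_eq_one hζq.pow_eq_one
    have h1 : e.symm u (IsCyclotomicExtension.zeta q K L) =
        IsCyclotomicExtension.zeta q K L ^ g := by
      have h2 := hz.autToPow_spec K (e.symm u)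
      have h3 : hz.autToPow K (e.symm u) = u := e.apply_symm_apply u
      rw [h3, hu, Units.val_mk0, ZMod.val_natCast] at h2
      rw [← h2]
      exact (pow_eq_pow_mod g hz.pow_eq_one).symm
    rw [← hk, map_pow, h1, ← pow_mul, ← pow_mul, mul_comm]
  · intro σ
    obtain ⟨k, hk⟩ := Subgroup.mem_zpowers_iff.1 (hgen (e σ))
    refine Subgroup.mem_zpowers_iff.2 ⟨k, ?_⟩
    rw [← map_zpow, hk, e.symm_apply_apply]

open Polynomial in
theorem gal_norm_sub {q : ℕ} (hq : q.Prime) [IsCyclotomicExtension {q} K L]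
    (hirr : Irreducible (Polynomial.cyclotomic q K))
    {ζq : L} (hζq : IsPrimitiveRoot ζq q) (a : K) :
    Algebra.norm K (algebraMap K L a - ζq) = (Polynomial.cyclotomic q K).eval a := by
  have : NeZero q := ⟨hq.ne_zero⟩
  have := IsCyclotomicExtension.neZero' q K L
  let E := AlgebraicClosure L
  obtain ⟨z, hz⟩ := IsAlgClosed.exists_root _ (degree_cyclotomic_pos q E (NeZero.pos _)).ne.symm
  apply (algebraMap K E).injective
  let := IsCyclotomicExtension.finiteDimensional {q} K L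
  let := IsCyclotomicExtension.isGalois {q} K L
  rw [Algebra.norm_eq_prod_embeddings]
  have Hprod : (Finset.univ.prod fun σ : L →ₐ[K] E => σ (algebraMap K L a - ζq)) =
      eval (algebraMap K E a) (cyclotomic' q E) := by
    rw [cyclotomic', eval_prod, ← @Finset.prod_attach E E, ← Finset.univ_eq_attach]
    refine Fintype.prod_equiv (hζq.embeddingsEquivPrimitiveRoots E hirr) _ _ fun σ => ?_
    simp
  have : NeZero (q : E) := NeZero.of_faithfulSMul K _ q
  rw [Hprod, cyclotomic', ← cyclotomic_eq_prod_X_sub_primitiveRoots (isRoot_cyclotomic_iff.1 hz),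
    ← map_cyclotomic q (algebraMap K E), eval_map_apply]

theorem norm_xi {p q : ℕ} (hp : p.Prime) (hq : q.Prime) (hqp : p ∣ q - 1) [IsCyclotomicExtension {q} K L]
    (hirr : Irreducible (Polynomial.cyclotomic q K)) {ζ : K} (hζ : IsPrimitiveRoot ζ p)
    {ζq : L} (hζq : IsPrimitiveRoot ζq q) :
    Algebra.norm K (1 - algebraMap K L ζ * ζq) = 1 := by
  have : NeZero q := ⟨hq.ne_zero⟩
  have : Fact q.Prime := ⟨hq⟩
  have hζ0 : ζ ≠ 0 := hζ.ne_zero hp.ne_zero
  have hζ1 : ζ ≠ 1 := hζ.ne_one hp.one_lt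
  have hq1 : ζ ^ (q - 1) = 1 := (hζ.pow_eq_one_iff_dvd _).2 hqp
  have hqq : ζ ^ q = ζ := by
    have : q = (q - 1) + 1 := by have := hq.two_le; omega
    rw [this, pow_succ, hq1, one_mul]
  have e1 : (1 - algebraMap K L ζ * ζq) = algebraMap K L ζ * (algebraMap K L ζ⁻¹ - ζq) := by
    rw [mul_sub, ← map_mul, mul_inv_cancel₀ hζ0, map_one]
  rw [e1, map_mul, Algebra.norm_algebraMap, IsCyclotomicExtension.finrank L hirr,
    Nat.totient_prime hq, hq1, one_mul, gal_norm_sub hq hirr hζq]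
  have h2 := congrArg (Polynomial.eval ζ⁻¹) (Polynomial.cyclotomic_prime_mul_X_sub_one K q)
  simp only [Polynomial.eval_mul, Polynomial.eval_sub, Polynomial.eval_X, Polynomial.eval_one,
    Polynomial.eval_pow] at h2
  rw [inv_pow, hqq] at h2
  have h3 : ζ⁻¹ - 1 ≠ 0 := by
    rw [sub_ne_zero]
    intro h
    exact hζ1 (inv_eq_one.1 h)
  exact mul_right_cancel₀ h3 (by rw [h2, one_mul])

end Fermat.Agent.S14.Kappa
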