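import Mathlib

/-!
# S14 T02c: two abstract lemmas on Dedekind domains
-/

set_option autoImplicit false

namespace Fermat.Agent.S14.Kappa

/-- local computation at a totally ramified prime. -/
theorem local_cong {B : Type*} [CommRing B] [IsDedekindDomain B] (Q : Ideal B) [Q.IsPrime]
    (hQ : Q ≠ ⊥) (τ : B ≃+* B) (π w ξ β : B) (g r : ℕ)
    (hπ : emultiplicity Q (Ideal.span {π}) = 1) (hτ : ∀ y, τ y - y ∈ Q) (hτπ : τ π = π * w)
    (hw : w - (g : B) ∈ Q) (hβ : emultiplicity Q (Ideal.span {β}) = r) (hξ : τ β = ξ * β) :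
    ξ - (g : B) ^ r ∈ Q := by
  classical
  have hQp : Prime Q := Ideal.prime_of_isPrime hQ inferInstance
  -- `π ≠ 0`
  have hπ0 : π ≠ 0 := by
    rintro rfl
    have : Ideal.span {(0 : B)} = 0 := by simp
    rw [this, emultiplicity_zero] at hπ
    exact absurd hπ (by simp)
  have hπQ : Q ∣ Ideal.span {π} := by
    have : Q ^ 1 ∣ Ideal.span {π} := pow_dvd_of_le_emultiplicity (by rw [hπ]; simp)
    simpa using this
  obtain ⟨D, hD⟩ := hπQ
  have hDQ : ¬ Q ∣ D := by
    rintro ⟨D', rfl⟩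
    have : Q ^ 2 ∣ Ideal.span {π} := ⟨D', by rw [hD, pow_two, mul_assoc]⟩
    have h2 := le_emultiplicity_of_pow_dvd this
    rw [hπ] at h2
    exact absurd h2 (by norm_num)
  -- `d0 ∈ D \ Q`
  obtain ⟨d0, hd0D, hd0Q⟩ : ∃ d0 ∈ D, d0 ∉ Q := by
    by_contra hcon
    push Not at hcon
    exact hDQ (Ideal.dvd_iff_le.mpr hcon)
  set d := d0 ^ r with hd
  have hdQ : d ∉ Q := fun h => hd0Q (Ideal.IsPrime.mem_of_pow_mem inferInstance r h)
  have hβQ : β ∈ Q ^ r := by
    have : Q ^ r ∣ Ideal.span {β} := pow_dvd_of_le_emultiplicity (by rw [hβ])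
    exact Ideal.dvd_span_singleton.mp this
  have hmem : d * β ∈ Ideal.span {π ^ r} := by
    rw [← Ideal.span_singleton_pow, hD, mul_pow, mul_comm]
    exact Ideal.mul_mem_mul (Ideal.pow_mem_pow hd0D r) hβQ
  obtain ⟨y, hy⟩ := Ideal.mem_span_singleton'.mp hmem
  -- hy : y * π ^ r = d * β
  have hπmem : π ∈ Q := by
    have : Q ∣ Ideal.span {π} := ⟨D, hD⟩
    exact Ideal.dvd_span_singleton.mp this
  have hyQ : y ∉ Q := by
    intro hyQ
    have h1 : d * β ∈ Q ^ (r + 1) := by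
      rw [← hy, pow_succ, mul_comm y]
      exact Ideal.mul_mem_mul (Ideal.pow_mem_pow hπmem r) hyQ
    have h2 : Q ^ (r + 1) ∣ Ideal.span {d} * Ideal.span {β} := by
      rw [Ideal.span_singleton_mul_span_singleton]
      exact Ideal.dvd_span_singleton.mpr h1
    have h3 := le_emultiplicity_of_pow_dvd h2
    have h4 : emultiplicity Q (Ideal.span {d}) = 0 := by
      rw [emultiplicity_eq_zero, Ideal.dvd_span_singleton]
      exact hdQ
    rw [emultiplicity_mul hQp, h4, hβ, zero_add] at h3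
    have : r + 1 ≤ r := by exact_mod_cast h3
    omega
  -- apply `τ`
  have h5 : τ d * ξ * y = d * w ^ r * τ y := by
    have h6 : τ (y * π ^ r) = τ (d * β) := by rw [hy]
    rw [map_mul, map_mul, map_pow, hτπ, hξ, mul_pow] at h6
    have h7 : π ^ r * (τ d * ξ * y) = π ^ r * (d * w ^ r * τ y) := by
      calc π ^ r * (τ d * ξ * y) = τ d * ξ * (y * π ^ r) := by ring
        _ = τ d * ξ * (d * β) := by rw [hy]
        _ = d * (τ d * (ξ * β)) := by ring
        _ = d * (τ y * (π ^ r * w ^ r)) := by rw [h6]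
        _ = π ^ r * (d * w ^ r * τ y) := by ring
    exact mul_left_cancel₀ (pow_ne_zero r hπ0) h7
  -- reduce modulo `Q`
  have hq : ∀ a b : B, a - b ∈ Q → Ideal.Quotient.mk Q a = Ideal.Quotient.mk Q b :=
    fun a b h => Ideal.Quotient.eq.mpr h
  have h8 := congrArg (Ideal.Quotient.mk Q) h5
  simp only [map_mul, map_pow] at h8
  rw [hq _ _ (hτ d), hq _ _ (hτ y), hq _ _ hw] at h8
  have hd0' : Ideal.Quotient.mk Q d ≠ 0 := by
    rw [Ne, Ideal.Quotient.eq_zero_iff_mem]; exact hdQ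
  have hy0' : Ideal.Quotient.mk Q y ≠ 0 := by
    rw [Ne, Ideal.Quotient.eq_zero_iff_mem]; exact hyQ
  have h9 : Ideal.Quotient.mk Q ξ = Ideal.Quotient.mk Q ((g : B)) ^ r := by
    have h10 := mul_right_cancel₀ hy0' h8
    exact mul_left_cancel₀ hd0' h10
  rw [← Ideal.Quotient.eq, map_pow]
  exact h9

end Fermat.Agent.S14.Kappa
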