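import Fermat.Agent.S14.Kappa.Cyclo

/-!
# S14 T02d: ramification in `L = K(ζ_q)` over `K = ℚ(ζ_p)`
-/

set_option autoImplicit false
set_option linter.style.haveILetI false
set_option linter.unusedSectionVars false

namespace Fermat.Agent.S14.Kappa

open NumberField

variable {K : Type*} [Field K] [NumberField K] {L : Type*} [Field L] [NumberField L] [Algebra K L]

/-- the rational prime below a nonzero prime ideal. -/
theorem ram_exists_prime_under (P : Ideal (𝓞 K)) [P.IsPrime] (hP : P ≠ ⊥) :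
    ∃ ℓ : ℕ, ℓ.Prime ∧ P.LiesOver (Ideal.span {(ℓ : ℤ)}) := by
  have h0 : P.under ℤ ≠ ⊥ := Ideal.under_ne_bot ℤ hP
  have hprime : (P.under ℤ).IsPrime := inferInstance
  obtain ⟨a, ha⟩ := (IsPrincipalIdealRing.principal (P.under ℤ)).principal
  have ha' : P.under ℤ = Ideal.span {a} := ha
  have ha0 : a ≠ 0 := by
    rintro rfl
    apply h0
    rw [ha']
    simp
  have hap : Prime a := by
    rw [← Ideal.span_singleton_prime ha0, ← ha']
    exact hprime
  refine ⟨a.natAbs, Int.prime_iff_natAbs_prime.1 hap, ⟨?_⟩⟩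
  rw [Int.span_natAbs, ← ha']

/-- multiplicities in an extension of number fields. -/
theorem ram_emultiplicity (P : Ideal (𝓞 K)) (P' : Ideal (𝓞 L)) [P.IsPrime] [P'.IsPrime]
    [P'.LiesOver P] (hP : P ≠ ⊥) (x : 𝓞 K) (hx : x ≠ 0) :
    emultiplicity P' (Ideal.span {algebraMap (𝓞 K) (𝓞 L) x})
      = (P'.ramificationIdx (𝓞 K) : ℕ∞) * emultiplicity P (Ideal.span {x}) := by
  have hP' : P' ≠ ⊥ := Ideal.ne_bot_of_liesOver_of_ne_bot hP P'
  have h := Ideal.IsDedekindDomain.emultiplicity_map_eq_ramificationIdx'_mul (R := 𝓞 K) (S := 𝓞 L)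
    (v := P) (w := P') (I := Ideal.span {x}) (by simpa using hx)
    (Ideal.prime_of_isPrime hP inferInstance).irreducible
    (Ideal.prime_of_isPrime hP' inferInstance).irreducible hP'
  rw [Ideal.map_span, Set.image_singleton, Ideal.ramificationIdx'_eq_ramificationIdx P P' hP] at h
  exact h

theorem ram_natCast_mem_iff (P : Ideal (𝓞 K)) (ℓ : ℕ) [hP : P.LiesOver (Ideal.span {(ℓ : ℤ)})]
    (n : ℕ) : (n : 𝓞 K) ∈ P ↔ ℓ ∣ n := by
  have h1 : (n : 𝓞 K) ∈ P ↔ (n : ℤ) ∈ P.under ℤ := by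
    rw [Ideal.under_def, Ideal.mem_comap]
    simp
  rw [h1, ← hP.over, Ideal.mem_span_singleton]
  exact Int.natCast_dvd_natCast

theorem ram_idx_of_not_mem {p q : ℕ} (hp : p.Prime) (hq : q.Prime) (hpq : p ≠ q)
    [IsCyclotomicExtension {p} ℚ K] [IsCyclotomicExtension {q} K L]
    (P : Ideal (𝓞 K)) (P' : Ideal (𝓞 L)) [P.IsPrime] [P'.IsPrime] [P'.LiesOver P] (hP : P ≠ ⊥)
    (hqP : (q : 𝓞 K) ∉ P) : P'.ramificationIdx (𝓞 K) = 1 := by
  obtain ⟨ℓ, hℓ, hover⟩ := ram_exists_prime_under P hP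
  haveI : Fact ℓ.Prime := ⟨hℓ⟩
  haveI : Fact p.Prime := ⟨hp⟩
  haveI : P'.LiesOver (Ideal.span {(ℓ : ℤ)}) := Ideal.LiesOver.trans P' P _
  haveI : IsCyclotomicExtension {p * q} ℚ L := isCyclotomicExtension_mul (K := K) L hp hq hpq
  haveI : NeZero (p * q) := ⟨Nat.mul_ne_zero hp.ne_zero hq.ne_zero⟩
  have hℓq : ℓ ≠ q := by
    rintro rfl
    exact hqP ((ram_natCast_mem_iff P ℓ ℓ).2 dvd_rfl)
  have htower := Ideal.ramificationIdx_tower (R := ℤ) P P'
  by_cases hℓp : ℓ = p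
  · subst hℓp
    have h1 := IsCyclotomicExtension.Rat.ramificationIdx_eq (ℓ * q) (m := q) (p := ℓ) (k := 0) L P'
      (by ring) (fun h => hpq ((Nat.prime_dvd_prime_iff_eq hp hq).1 h))
    have h2 := IsCyclotomicExtension.Rat.ramificationIdx_eq_of_prime ℓ K P
    rw [h1, h2, pow_zero, one_mul] at htower
    have h3 : 0 < ℓ - 1 := by have := hp.two_le; omega
    exact (Nat.eq_of_mul_eq_mul_left h3 (by rw [mul_one]; exact htower)).symm
  · have h1 := IsCyclotomicExtension.Rat.ramificationIdx_eq_of_not_dvd (m := p * q) ℓ L P'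
      (fun h => by
        rcases (Nat.Prime.dvd_mul hℓ).1 h with h | h
        · exact hℓp ((Nat.prime_dvd_prime_iff_eq hℓ hp).1 h)
        · exact hℓq ((Nat.prime_dvd_prime_iff_eq hℓ hq).1 h))
    rw [h1] at htower
    exact Nat.eq_one_of_mul_eq_one_left htower.symm

theorem ram_idx_int_of_mem {p q : ℕ} (hp : p.Prime) (hq : q.Prime) (hpq : p ≠ q)
    [IsCyclotomicExtension {p} ℚ K] [IsCyclotomicExtension {q} K L]
    (P' : Ideal (𝓞 L)) [P'.IsPrime] (hqP : (q : 𝓞 L) ∈ P') :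
    P'.LiesOver (Ideal.span {(q : ℤ)}) ∧ P'.ramificationIdx ℤ = q - 1 := by
  have hP' : P' ≠ ⊥ := by
    rintro rfl
    have : (q : 𝓞 L) = 0 := by simpa using hqP
    exact hq.ne_zero (by exact_mod_cast this)
  obtain ⟨ℓ, hℓ, hover⟩ := ram_exists_prime_under P' hP'
  have hℓq : ℓ = q := (Nat.prime_dvd_prime_iff_eq hℓ hq).1 ((ram_natCast_mem_iff P' ℓ q).1 hqP)
  subst hℓq
  haveI : Fact ℓ.Prime := ⟨hℓ⟩
  haveI : IsCyclotomicExtension {p * ℓ} ℚ L := isCyclotomicExtension_mul (K := K) L hp hq hpq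
  have h1 := IsCyclotomicExtension.Rat.ramificationIdx_eq (p * ℓ) (m := p) (p := ℓ) (k := 0) L P'
    (by ring) (fun h => hpq ((Nat.prime_dvd_prime_iff_eq hq hp).1 h).symm)
  rw [pow_zero, one_mul] at h1
  exact ⟨hover, h1⟩

theorem ram_idx_of_mem {p q : ℕ} (hp : p.Prime) (hq : q.Prime) (hpq : p ≠ q)
    [IsCyclotomicExtension {p} ℚ K] [IsCyclotomicExtension {q} K L]
    (P : Ideal (𝓞 K)) (P' : Ideal (𝓞 L)) [P.IsPrime] [P'.IsPrime] [hPP' : P'.LiesOver P]
    (hqP : (q : 𝓞 K) ∈ P) : P'.ramificationIdx (𝓞 K) = q - 1 := by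
  have hP : P ≠ ⊥ := by
    rintro rfl
    have : (q : 𝓞 K) = 0 := by simpa using hqP
    exact hq.ne_zero (by exact_mod_cast this)
  have hqP' : (q : 𝓞 L) ∈ P' := by
    have h1 : algebraMap (𝓞 K) (𝓞 L) (q : 𝓞 K) ∈ P' := by
      rw [← Ideal.mem_comap, ← Ideal.under_def, ← hPP'.over]
      exact hqP
    simpa using h1
  obtain ⟨-, h1⟩ := ram_idx_int_of_mem (K := K) hp hq hpq P' hqP'
  obtain ⟨ℓ, hℓ, hover⟩ := ram_exists_prime_under P hP
  have hℓq : ℓ = q := (Nat.prime_dvd_prime_iff_eq hℓ hq).1 ((ram_natCast_mem_iff P ℓ q).1 hqP)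
  subst hℓq
  haveI : Fact ℓ.Prime := ⟨hℓ⟩
  haveI : NeZero p := ⟨hp.ne_zero⟩
  have h2 := IsCyclotomicExtension.Rat.ramificationIdx_eq_of_not_dvd (m := p) ℓ K P
    (fun h => hpq ((Nat.prime_dvd_prime_iff_eq hq hp).1 h).symm)
  have htower := Ideal.ramificationIdx_tower (R := ℤ) P P'
  rw [h1, h2, one_mul] at htower
  exact htower.symm

/-- `L / K` is unramified outside `q`. -/
theorem emultiplicity_of_not_mem {p q : ℕ} (hp : p.Prime) (hq : q.Prime) (hpq : p ≠ q)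
    [IsCyclotomicExtension {p} ℚ K] [IsCyclotomicExtension {q} K L]
    (P : Ideal (𝓞 K)) (P' : Ideal (𝓞 L)) [P.IsPrime] [P'.IsPrime] [P'.LiesOver P] (hP : P ≠ ⊥)
    (hqP : (q : 𝓞 K) ∉ P) (x : 𝓞 K) (hx : x ≠ 0) :
    emultiplicity P' (Ideal.span {algebraMap (𝓞 K) (𝓞 L) x}) = emultiplicity P (Ideal.span {x}) := by
  rw [ram_emultiplicity P P' hP x hx, ram_idx_of_not_mem hp hq hpq P P' hP hqP, Nat.cast_one,
    one_mul]

/-- `L / K` is totally ramified at the primes over `q`. -/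
theorem emultiplicity_of_mem {p q : ℕ} (hp : p.Prime) (hq : q.Prime) (hpq : p ≠ q)
    [IsCyclotomicExtension {p} ℚ K] [IsCyclotomicExtension {q} K L]
    (P : Ideal (𝓞 K)) (P' : Ideal (𝓞 L)) [P.IsPrime] [P'.IsPrime] [P'.LiesOver P]
    (hqP : (q : 𝓞 K) ∈ P) (x : 𝓞 K) (hx : x ≠ 0) :
    emultiplicity P' (Ideal.span {algebraMap (𝓞 K) (𝓞 L) x})
      = ((q - 1 : ℕ) : ℕ∞) * emultiplicity P (Ideal.span {x}) := by
  have hP : P ≠ ⊥ := by
    rintro rfl
    have : (q : 𝓞 K) = 0 := by simpa using hqP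
    exact hq.ne_zero (by exact_mod_cast this)
  rw [ram_emultiplicity P P' hP x hx, ram_idx_of_mem hp hq hpq P P' hqP]

/-- `(q) = (1 - ζ_q)^(q-1)`. -/
theorem ram_span_q {R : Type*} [CommRing R] [IsDomain R] {q : ℕ} (hq : q.Prime) (zq : R)
    (hzq : IsPrimitiveRoot zq q) :
    Ideal.span {(q : R)} = Ideal.span {1 - zq} ^ (q - 1) := by
  obtain ⟨n, rfl⟩ : ∃ n, q = n + 1 := ⟨q - 1, by have := hq.two_le; omega⟩
  have h1 := hzq.prod_one_sub_pow_eq_order
  have h2 : ((n + 1 : ℕ) : R) = ∏ k ∈ Finset.range n, (1 - zq ^ (k + 1)) := by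
    rw [h1]; push_cast; ring
  rw [h2, ← Ideal.prod_span_singleton, Nat.add_sub_cancel]
  have h3 : ∀ k ∈ Finset.range n, Ideal.span {1 - zq ^ (k + 1)} = Ideal.span {1 - zq} := by
    intro k hk
    have hk' : k + 1 < n + 1 := by have := Finset.mem_range.1 hk; omega
    have hcop : (k + 1).Coprime (n + 1) :=
      ((Nat.Prime.coprime_iff_not_dvd hq).2 (fun h => by
        have := Nat.le_of_dvd (Nat.succ_pos k) h
        omega)).symm
    have := hzq.associated_sub_one_pow_sub_one_of_coprime hcop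
    rw [← Ideal.span_singleton_neg (1 - zq ^ (k + 1)), ← Ideal.span_singleton_neg (1 - zq), neg_sub,
      neg_sub]
    exact (Ideal.span_singleton_eq_span_singleton.2 this).symm
  rw [Finset.prod_congr rfl h3, Finset.prod_const, Finset.card_range]

/-- `1 - ζ_q` is a uniformiser at the primes over `q`. -/
theorem emultiplicity_pi {p q : ℕ} (hp : p.Prime) (hq : q.Prime) (hpq : p ≠ q)
    [IsCyclotomicExtension {p} ℚ K] [IsCyclotomicExtension {q} K L]
    (P' : Ideal (𝓞 L)) [P'.IsPrime] (hqP : (q : 𝓞 L) ∈ P') (zq : 𝓞 L)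
    (hzq : IsPrimitiveRoot zq q) :
    emultiplicity P' (Ideal.span {1 - zq}) = 1 := by
  obtain ⟨hover, hidx⟩ := ram_idx_int_of_mem (K := K) hp hq hpq P' hqP
  have hP' : P' ≠ ⊥ := by
    rintro rfl
    have : (q : 𝓞 L) = 0 := by simpa using hqP
    exact hq.ne_zero (by exact_mod_cast this)
  have hq0 : Ideal.span {(q : ℤ)} ≠ ⊥ := by
    simpa using hq.ne_zero
  have hqprime : Prime (Ideal.span {(q : ℤ)}) := by
    apply Ideal.prime_of_isPrime hq0
    rw [Ideal.span_singleton_prime (by exact_mod_cast hq.ne_zero)]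
    exact Nat.prime_iff_prime_int.1 hq
  have hP'prime : Prime P' := Ideal.prime_of_isPrime hP' inferInstance
  have h := Ideal.IsDedekindDomain.emultiplicity_map_eq_ramificationIdx'_mul (R := ℤ) (S := 𝓞 L)
    (v := Ideal.span {(q : ℤ)}) (w := P') (I := Ideal.span {(q : ℤ)}) hq0
    hqprime.irreducible hP'prime.irreducible hP'
  rw [Ideal.map_span, Set.image_singleton, Ideal.ramificationIdx'_eq_ramificationIdx _ P' hq0, hidx,
    (FiniteMultiplicity.of_prime_left hqprime hq0).emultiplicity_self, mul_one] at h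
  have h2 : algebraMap ℤ (𝓞 L) (q : ℤ) = (q : 𝓞 L) := by simp
  rw [h2, ram_span_q hq zq hzq, emultiplicity_pow hP'prime] at h
  have hne : (1 - zq) ≠ 0 := by
    intro h0
    have h1 : zq = 1 := (sub_eq_zero.1 h0).symm
    have := hzq.eq_orderOf
    rw [h1, orderOf_one] at this
    exact hq.one_lt.ne' this
  have hfin : FiniteMultiplicity P' (Ideal.span {1 - zq}) :=
    FiniteMultiplicity.of_prime_left hP'prime (by simpa using hne)
  rw [hfin.emultiplicity_eq_multiplicity] at h ⊢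
  have h3 : (q - 1) * multiplicity P' (Ideal.span {1 - zq}) = (q - 1) * 1 := by
    rw [mul_one]
    exact_mod_cast h
  have h4 : 0 < q - 1 := by have := hq.two_le; omega
  rw [Nat.eq_of_mul_eq_mul_left h4 h3]
  rfl

end Fermat.Agent.S14.Kappa
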